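import Fermat.Agent.S21.E.Defs
import Fermat.Agent.S21.E.Api

/-!
# Project ES, part E, work package E-RH-OO: the matrix of cusp functions

For an admissible family `t : Tuple Γ` we normalise the matrix of conjugates,
`ent t k x z = Δ z ^ d_k * cmat Γ t.v z k x`, and pass to the local parameter
`w = exp (2 π i z / L)` at `i∞`, where `L` is a common period of the action of `T` on the cosets.
The resulting matrix germ `cuspMat t` is analytic at `0` and equivariant for the rotation by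
`exp (2 π i / L)`.
-/

set_option autoImplicit false

open UpperHalfPlane hiding I
open Complex Filter Function Topology
open scoped Manifold MatrixGroups ModularForm Real

namespace Fermat.Agent.S21.E

noncomputable section

namespace RHInfty

local notation "Δ" => ModularForm.discriminant
local notation "𝕢" => Periodic.qParam

variable {Γ : Subgroup SL(2, ℤ)}

/-- a common period of the action of `T` on the cosets -/
def cuspPeriod (Γ : Subgroup SL(2, ℤ)) : ℕ :=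
  orderOf (MulAction.toPermHom SL(2, ℤ) (SL(2, ℤ) ⧸ Γ) ModularGroup.T)

lemma cuspPeriod_pos [Finite (SL(2, ℤ) ⧸ Γ)] : 0 < cuspPeriod Γ :=
  orderOf_pos _

lemma T_pow_smul (x : SL(2, ℤ) ⧸ Γ) : ModularGroup.T ^ cuspPeriod Γ • x = x := by
  have h := pow_orderOf_eq_one (MulAction.toPermHom SL(2, ℤ) (SL(2, ℤ) ⧸ Γ) ModularGroup.T)
  rw [← map_pow] at h
  have := congrArg (fun e : Equiv.Perm (SL(2, ℤ) ⧸ Γ) => e x) h
  simpa [cuspPeriod] using this

lemma discriminant_T_smul (z : ℍ) : Δ (ModularGroup.T • z) = Δ z := by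
  rw [modular_T_smul]
  exact SlashInvariantForm.vAdd_apply_of_mem_strictPeriods CuspForm.discriminant z
    one_mem_strictPeriods_SL

lemma discriminant_T_pow_smul (n : ℕ) (z : ℍ) : Δ (ModularGroup.T ^ n • z) = Δ z := by
  induction n with
  | zero => simp
  | succ n ih => rw [pow_succ', mul_smul, discriminant_T_smul, ih]

lemma cuspPeriod_real_pos [Finite (SL(2, ℤ) ⧸ Γ)] : (0 : ℝ) < (cuspPeriod Γ : ℝ) := by
  exact_mod_cast cuspPeriod_pos (Γ := Γ)

/-- the rotation number -/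
def rot (Γ : Subgroup SL(2, ℤ)) : ℂ := cexp (2 * π * I / (cuspPeriod Γ : ℕ))

lemma rot_isPrimitiveRoot [Finite (SL(2, ℤ) ⧸ Γ)] : IsPrimitiveRoot (rot Γ) (cuspPeriod Γ) :=
  Complex.isPrimitiveRoot_exp _ (cuspPeriod_pos (Γ := Γ)).ne'

lemma rot_ne_zero : rot Γ ≠ 0 := exp_ne_zero _

lemma qParam_T_smul [Finite (SL(2, ℤ) ⧸ Γ)] (z : ℍ) :
    𝕢 (cuspPeriod Γ : ℝ) ((ModularGroup.T • z : ℍ) : ℂ) = rot Γ * 𝕢 (cuspPeriod Γ : ℝ) z := by
  have hL : ((cuspPeriod Γ : ℕ) : ℂ) ≠ 0 := by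
    exact_mod_cast (cuspPeriod_pos (Γ := Γ)).ne'
  rw [modular_T_smul]
  simp only [Periodic.qParam, rot, ← Complex.exp_add]
  congr 1
  simp only [coe_vadd, ofReal_one, ofReal_natCast]
  field_simp

variable [Fintype (SL(2, ℤ) ⧸ Γ)] [DecidableEq (SL(2, ℤ) ⧸ Γ)]

/-- the normalised entries `Δ ^ d_k * v_k (r_x⁻¹ z)` -/
def ent (t : Tuple Γ) (k x : SL(2, ℤ) ⧸ Γ) : ℍ → ℂ :=
  fun z => Δ z ^ t.d k * cmat Γ t.v z k x

lemma ent_mdiff (t : Tuple Γ) (k x : SL(2, ℤ) ⧸ Γ) : MDiff (ent t k x) := by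
  have h1 : MDiff (fun z : ℍ => Δ z) := CuspForm.discriminant.holo'
  have h2 : MDiff (cj Γ (t.v k) x) := mdiff_cj (t.wh k).holo x
  exact (h1.pow (t.d k)).mul h2

lemma ent_bdd (t : Tuple Γ) (k x : SL(2, ℤ) ⧸ Γ) : IsBoundedAtImInfty (ent t k x) :=
  (t.wh k).bdd (Quotient.out x)⁻¹

lemma ent_T_smul (t : Tuple Γ) (k x : SL(2, ℤ) ⧸ Γ) (z : ℍ) :
    ent t k x (ModularGroup.T • z) = ent t k (ModularGroup.T⁻¹ • x) z := by
  simp only [ent, discriminant_T_smul, cmat_smul]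

lemma ent_T_pow_smul (t : Tuple Γ) (k x : SL(2, ℤ) ⧸ Γ) (z : ℍ) :
    ent t k x (ModularGroup.T ^ cuspPeriod Γ • z) = ent t k x z := by
  simp only [ent, discriminant_T_pow_smul, cmat_smul]
  rw [inv_smul_eq_iff.mpr (T_pow_smul x).symm]

lemma ent_periodic (t : Tuple Γ) (k x : SL(2, ℤ) ⧸ Γ) :
    Periodic (ent t k x ∘ ofComplex) ((cuspPeriod Γ : ℝ) : ℂ) := by
  intro w
  by_cases hw : 0 < im w
  · have hw' : 0 < im (w + ((cuspPeriod Γ : ℝ) : ℂ)) := by simpa using hw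
    simp only [comp_apply, ofComplex_apply_of_im_pos hw', ofComplex_apply_of_im_pos hw]
    rw [← ent_T_pow_smul t k x ⟨w, hw⟩]
    congr 1
    rw [← zpow_natCast, modular_T_zpow_smul]
    ext
    simp [add_comm]
  · have hw0 : im w ≤ 0 := not_lt.mp hw
    have hw' : im (w + ((cuspPeriod Γ : ℝ) : ℂ)) ≤ 0 := by simpa using hw0
    simp only [comp_apply, ofComplex_apply_of_im_nonpos hw', ofComplex_apply_of_im_nonpos hw0]

/-- the matrix of cusp functions of the normalised entries -/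
def cuspMat (t : Tuple Γ) (w : ℂ) : Matrix (SL(2, ℤ) ⧸ Γ) (SL(2, ℤ) ⧸ Γ) ℂ :=
  Matrix.of fun k x => cuspFunction (cuspPeriod Γ : ℝ) (ent t k x) w

lemma cuspMat_apply (t : Tuple Γ) (w : ℂ) (k x : SL(2, ℤ) ⧸ Γ) :
    cuspMat t w k x = cuspFunction (cuspPeriod Γ : ℝ) (ent t k x) w := rfl

lemma cuspMat_analyticAt (t : Tuple Γ) (k x : SL(2, ℤ) ⧸ Γ) :
    AnalyticAt ℂ (fun w => cuspMat t w k x) 0 :=
  analyticAt_cuspFunction_zero cuspPeriod_real_pos (ent_periodic t k x) (ent_mdiff t k x)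
    (ent_bdd t k x)

lemma cuspMat_qParam (t : Tuple Γ) (z : ℍ) (k x : SL(2, ℤ) ⧸ Γ) :
    cuspMat t (𝕢 (cuspPeriod Γ : ℝ) z) k x = ent t k x z :=
  eq_cuspFunction z cuspPeriod_real_pos.ne' (ent_periodic t k x)

lemma cuspMat_equivariant_of_ne (t : Tuple Γ) (k x : SL(2, ℤ) ⧸ Γ) {w : ℂ} (hw : ‖w‖ < 1)
    (hw0 : w ≠ 0) : cuspMat t (rot Γ * w) k x = cuspMat t w k (ModularGroup.T⁻¹ • x) := by
  have him := Periodic.im_invQParam_pos_of_norm_lt_one (cuspPeriod_real_pos (Γ := Γ)) hw hw0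
  set z : ℍ := ⟨_, him⟩ with hz
  have hwz : w = 𝕢 (cuspPeriod Γ : ℝ) z :=
    (Periodic.qParam_right_inv (cuspPeriod_real_pos (Γ := Γ)).ne' hw0).symm
  rw [hwz, ← qParam_T_smul, cuspMat_qParam, cuspMat_qParam, ent_T_smul]

lemma cuspMat_equivariant (t : Tuple Γ) :
    ∀ᶠ w in 𝓝 (0 : ℂ), ∀ k x, cuspMat t (rot Γ * w) k x =
      cuspMat t w k (ModularGroup.T⁻¹ • x) := by
  rw [Filter.eventually_all]
  intro k
  rw [Filter.eventually_all]
  intro x
  have hball : ∀ᶠ w in 𝓝 (0 : ℂ), ‖w‖ < 1 := by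
    have := Metric.ball_mem_nhds (0 : ℂ) zero_lt_one
    filter_upwards [this] with w hw
    simpa using hw
  -- the two functions agree on a punctured neighbourhood of `0`
  have hpunct : ∀ᶠ w in 𝓝[≠] (0 : ℂ), cuspMat t (rot Γ * w) k x =
      cuspMat t w k (ModularGroup.T⁻¹ • x) := by
    have h1 : ∀ᶠ w in 𝓝[≠] (0 : ℂ), ‖w‖ < 1 := hball.filter_mono nhdsWithin_le_nhds
    filter_upwards [h1, self_mem_nhdsWithin] with w hw hw0
    exact cuspMat_equivariant_of_ne t k x hw hw0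
  -- continuity at `0` of both sides
  have hc1 : ContinuousAt (fun w => cuspMat t (rot Γ * w) k x) 0 := by
    have hA : ContinuousAt (fun w => cuspMat t w k x) (rot Γ * 0) := by
      rw [mul_zero]; exact (cuspMat_analyticAt t k x).continuousAt
    exact ContinuousAt.comp (g := fun w => cuspMat t w k x) (f := fun w => rot Γ * w) hA
      (continuous_const.mul continuous_id).continuousAt
  have hc2 : ContinuousAt (fun w => cuspMat t w k (ModularGroup.T⁻¹ • x)) 0 :=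
    (cuspMat_analyticAt t k _).continuousAt
  have h0 : cuspMat t (rot Γ * 0) k x = cuspMat t 0 k (ModularGroup.T⁻¹ • x) := by
    have l1 := hc1.tendsto.mono_left (nhdsWithin_le_nhds (s := {(0 : ℂ)}ᶜ))
    have l2 := hc2.tendsto.mono_left (nhdsWithin_le_nhds (s := {(0 : ℂ)}ᶜ))
    exact tendsto_nhds_unique (l1.congr' hpunct) l2
  filter_upwards [hball] with w hw
  by_cases hw0 : w = 0
  · subst hw0; exact h0
  · exact cuspMat_equivariant_of_ne t k x hw hw0

/-- the determinant of the matrix of cusp functions, pulled back to `ℍ` -/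
lemma det_cuspMat_qParam (t : Tuple Γ) (z : ℍ) :
    (cuspMat t (𝕢 (cuspPeriod Γ : ℝ) z)).det = Δ z ^ t.total * (cmat Γ t.v z).det := by
  have h : cuspMat t (𝕢 (cuspPeriod Γ : ℝ) z) =
      Matrix.of fun k x => Δ z ^ t.d k * cmat Γ t.v z k x := by
    ext k x
    rw [cuspMat_qParam]
    rfl
  rw [h, Matrix.det_mul_column, Finset.prod_pow_eq_pow_sum]
  rfl

end RHInfty

end

end Fermat.Agent.S21.E
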